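import Fermat.Agent.H27.ESD.Interfaces

/-!
# P-ES / ES-D / CORE-b : pure `RiemannPackage` combinatorics (helper25)

Step 4 of the leading-term argument for S18 (findings #273 (1)):

* `rrSpace_mono` : `D ≤ D' → L(D) ≤ L(D')`;
* `finite_setOf_rrSpace_ne` : if `ℓ(D) > deg D + 1 - g` then `L(D + P) = L(D)` for all but
  finitely many places `P`;
* `exists_finset_finrank_one`, `exists_places_finrank_one` : there are `g` distinct places
  `P₁, …, P_g` (avoiding any given finite set) with `ℓ(P₁ + ⋯ + P_g) = 1`;
* `eq_of_effective_of_finrank_one` : if `D ≥ 0`, `ℓ(D) = 1`, `E ≥ 0` and `E - D` is principal, then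
  `E = D`;
* `exists_lift_of_mapDomain_eq` : if `E ≥ 0` and `r_* E = P̄₁ + ⋯ + P̄_g` with the `P̄ᵢ` distinct,
  then `E = Q₁ + ⋯ + Q_g` with `r(Qᵢ) = P̄ᵢ`.
-/

set_option autoImplicit false
set_option linter.unusedSectionVars false
set_option linter.style.haveILetI false

open AlgebraicCurve WithZero

namespace Fermat.Agent.H25.ESD

open Fermat.Agent.H27.ESD

noncomputable section

variable {K F : Type*} [Field K] [Field F] [Algebra K F]

/-- membership in `L(D)`, valuation form (definitional). -/
theorem mem_rrSpace_iff_val {D : Divisor K F} {f : F} :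
    f ∈ riemannRochSpace D ↔ ∀ v : Place K F, v.adicValuation f ≤ exp (D v) := Iff.rfl

theorem rrSpace_mono {D D' : Divisor K F} (h : D ≤ D') :
    riemannRochSpace D ≤ riemannRochSpace D' := fun _ hf v =>
  (hf v).trans (exp_le_exp.mpr (Finsupp.le_def.mp h v))

theorem le_add_single_one (D : Divisor K F) (P : Place K F) :
    D ≤ D + Finsupp.single P (1 : ℤ) := by
  classical
  rw [Finsupp.le_def]
  intro v
  rw [Finsupp.add_apply, Finsupp.single_apply]
  split_ifs <;> omega

theorem rrSpace_le_add_single (D : Divisor K F) (P : Place K F) :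
    riemannRochSpace D ≤ riemannRochSpace (D + Finsupp.single P (1 : ℤ)) :=
  rrSpace_mono (le_add_single_one D P)

/-- If `f ∈ L(D + P)`, `f ∈ L(D')` and `D'(P) = D(P)` then `f ∈ L(D)`. -/
theorem mem_rrSpace_of_mem_add_single {D D' : Divisor K F} {P : Place K F} {f : F}
    (hf : f ∈ riemannRochSpace (D + Finsupp.single P (1 : ℤ)))
    (hf' : f ∈ riemannRochSpace D') (hP : D' P = D P) : f ∈ riemannRochSpace D := by
  classical
  intro v
  by_cases hv : v = P
  · subst hv
    have := hf' v
    rwa [hP] at this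
  · have := hf v
    rwa [Finsupp.add_apply, Finsupp.single_apply, if_neg (Ne.symm hv), add_zero] at this

/-- the step is strict for `D' ≥ D` with `D'(P) = D(P)` as soon as it is strict for `D`. -/
theorem rrSpace_add_single_ne_of_le {D D' : Divisor K F} {P : Place K F}
    (hDD' : D ≤ D') (hP : D' P = D P)
    (hne : riemannRochSpace (D + Finsupp.single P (1 : ℤ)) ≠ riemannRochSpace D) :
    riemannRochSpace (D' + Finsupp.single P (1 : ℤ)) ≠ riemannRochSpace D' := by
  intro heq
  apply hne
  refine le_antisymm (fun f hf => ?_) (rrSpace_le_add_single D P)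
  have h1 : f ∈ riemannRochSpace (D' + Finsupp.single P (1 : ℤ)) :=
    rrSpace_mono (add_le_add_left hDD' _) hf
  rw [heq] at h1
  exact mem_rrSpace_of_mem_add_single hf h1 hP

theorem sum_single_apply_of_notMem (s : Finset (Place K F)) {P : Place K F} (hP : P ∉ s) :
    (∑ Q ∈ s, Finsupp.single Q (1 : ℤ)) P = 0 := by
  classical
  rw [Finsupp.finsetSum_apply]
  refine Finset.sum_eq_zero fun Q hQ => ?_
  rw [Finsupp.single_apply, if_neg]
  rintro rfl
  exact hP hQ

theorem sum_single_nonneg (s : Finset (Place K F)) :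
    (0 : Divisor K F) ≤ ∑ Q ∈ s, Finsupp.single Q (1 : ℤ) := by
  classical
  refine Finset.sum_nonneg fun Q _ => ?_
  rw [Finsupp.le_def]
  intro v
  rw [Finsupp.zero_apply, Finsupp.single_apply]
  split_ifs <;> omega

theorem degree_sum_single {g : ℕ} (h : RiemannPackage K F g) (s : Finset (Place K F)) :
    Divisor.degree (∑ Q ∈ s, Finsupp.single Q (1 : ℤ)) = s.card := by
  rw [map_sum]
  simp only [Divisor.degree_single, h.deg_one, Nat.cast_one, mul_one]
  rw [Finset.sum_const, nsmul_eq_mul, mul_one]

/-- **counting lemma**: `ℓ(D + Σ_{P ∈ s} P) ≥ ℓ(D) + #s` if every step `L(D) ⊂ L(D + P)`,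
`P ∈ s`, is strict. -/
theorem finrank_add_card_le {g : ℕ} (h : RiemannPackage K F g) (D : Divisor K F)
    (s : Finset (Place K F))
    (hs : ∀ P ∈ s, riemannRochSpace (D + Finsupp.single P (1 : ℤ)) ≠ riemannRochSpace D) :
    Module.finrank K (riemannRochSpace D) + s.card ≤
      Module.finrank K (riemannRochSpace (D + ∑ Q ∈ s, Finsupp.single Q (1 : ℤ))) := by
  classical
  induction s using Finset.induction_on with
  | empty => rw [Finset.sum_empty, add_zero, Finset.card_empty, add_zero]
  | insert P s hPs ih =>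
    have ih' := ih fun Q hQ => hs Q (Finset.mem_insert_of_mem hQ)
    set D' : Divisor K F := D + ∑ Q ∈ s, Finsupp.single Q (1 : ℤ) with hD'
    have hDD' : D ≤ D' := by
      rw [hD']
      exact le_add_of_nonneg_right (sum_single_nonneg s)
    have hP : D' P = D P := by
      rw [hD', Finsupp.add_apply, sum_single_apply_of_notMem s hPs, add_zero]
    have hne := rrSpace_add_single_ne_of_le hDD' hP (hs P (Finset.mem_insert_self P s))
    have hlt : riemannRochSpace D' < riemannRochSpace (D' + Finsupp.single P (1 : ℤ)) :=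
      lt_of_le_of_ne (rrSpace_le_add_single D' P) (Ne.symm hne)
    haveI := h.finite (D' + Finsupp.single P (1 : ℤ))
    have hfin := Submodule.finrank_lt_finrank_of_lt hlt
    have hsum : D + ∑ Q ∈ insert P s, Finsupp.single Q (1 : ℤ) =
        D' + Finsupp.single P (1 : ℤ) := by
      rw [Finset.sum_insert hPs, hD']
      abel
    rw [hsum, Finset.card_insert_of_notMem hPs]
    omega

/-- **(b1)** If `ℓ(D) > deg D + 1 - g`, then `L(D + P) = L(D)` for all but finitely many `P`. -/
theorem finite_setOf_rrSpace_ne {g : ℕ} (h : RiemannPackage K F g) (D : Divisor K F)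
    (hD : Divisor.degree D + 1 - (g : ℤ) < (Module.finrank K (riemannRochSpace D) : ℤ)) :
    {P : Place K F |
      riemannRochSpace (D + Finsupp.single P (1 : ℤ)) ≠ riemannRochSpace D}.Finite := by
  classical
  by_contra hinf
  rw [← Set.Infinite] at hinf
  obtain ⟨c, hc⟩ := h.eq_of_large
  obtain ⟨s, hs, hcard⟩ := hinf.exists_subset_card_eq (c - Divisor.degree D).toNat
  have h1 := finrank_add_card_le h D s fun P hP => hs hP
  have hdeg : Divisor.degree (D + ∑ Q ∈ s, Finsupp.single Q (1 : ℤ)) =
      Divisor.degree D + s.card := by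
    rw [map_add, degree_sum_single h]
  have hge : c ≤ Divisor.degree (D + ∑ Q ∈ s, Finsupp.single Q (1 : ℤ)) := by
    rw [hdeg, hcard]
    have := Int.self_le_toNat (c - Divisor.degree D)
    omega
  have h2 := hc _ hge
  rw [hdeg] at h2
  have h1' : (Module.finrank K (riemannRochSpace D) : ℤ) + s.card ≤
      (Module.finrank K (riemannRochSpace (D + ∑ Q ∈ s, Finsupp.single Q (1 : ℤ))) : ℤ) := by
    exact_mod_cast h1
  omega

/-- **(b2), finset form.** -/
theorem exists_finset_finrank_one {g : ℕ} (h : RiemannPackage K F g)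
    (avoid : Finset (Place K F)) (i : ℕ) (hi : i ≤ g) :
    ∃ s : Finset (Place K F), s.card = i ∧ Disjoint s avoid ∧
      Module.finrank K (riemannRochSpace (∑ Q ∈ s, Finsupp.single Q (1 : ℤ))) = 1 := by
  classical
  induction i with
  | zero =>
    refine ⟨∅, rfl, Finset.disjoint_empty_left _, ?_⟩
    rw [Finset.sum_empty]
    exact h.finrank_zero
  | succ i ih =>
    obtain ⟨s, hcard, hdisj, hfin⟩ := ih (Nat.le_of_succ_le hi)
    set D : Divisor K F := ∑ Q ∈ s, Finsupp.single Q (1 : ℤ) with hD
    have hbad := finite_setOf_rrSpace_ne h D (by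
      rw [hfin, hD, degree_sum_single h, hcard]
      have : (i : ℤ) + 1 ≤ g := by exact_mod_cast hi
      push_cast
      omega)
    haveI := h.infinite_places
    obtain ⟨P, hP⟩ := Infinite.exists_notMem_finset (hbad.toFinset ∪ s ∪ avoid)
    simp only [Finset.mem_union, Set.Finite.mem_toFinset, Set.mem_ofPred_eq, not_or,
      not_not] at hP
    obtain ⟨⟨hP1, hP2⟩, hP3⟩ := hP
    refine ⟨insert P s, ?_, ?_, ?_⟩
    · rw [Finset.card_insert_of_notMem hP2, hcard]
    · rw [Finset.disjoint_insert_left]
      exact ⟨hP3, hdisj⟩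
    · rw [Finset.sum_insert hP2, add_comm, hP1, hfin]

/-- **(b2)** There are `g` distinct places, avoiding a given finite set, whose sum `D` has
`ℓ(D) = 1`. -/
theorem exists_places_finrank_one {g : ℕ} (h : RiemannPackage K F g)
    (avoid : Finset (Place K F)) :
    ∃ P : Fin g → Place K F, Function.Injective P ∧ (∀ i, P i ∉ avoid) ∧
      Module.finrank K (riemannRochSpace (∑ i, Finsupp.single (P i) (1 : ℤ))) = 1 := by
  classical
  obtain ⟨s, hcard, hdisj, hfin⟩ := exists_finset_finrank_one h avoid g le_rfl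
  let e : Fin g ≃ s := (Finset.equivFinOfCardEq hcard).symm
  refine ⟨fun i => (e i : Place K F), fun i j hij => e.injective (Subtype.ext hij),
    fun i hi => Finset.disjoint_left.mp hdisj (e i).2 hi, ?_⟩
  have : (∑ i, Finsupp.single ((e i : Place K F)) (1 : ℤ)) =
      ∑ Q ∈ s, Finsupp.single Q (1 : ℤ) := by
    rw [← Finset.sum_coe_sort s (fun Q => Finsupp.single Q (1 : ℤ))]
    exact Equiv.sum_comp e (fun Q : s => Finsupp.single (Q : Place K F) (1 : ℤ))
  rw [this, hfin]

/-- nonzero constants have order `0` at every place. -/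
theorem adicValuation_algebraMap_eq_one (v : Place K F) {c : K} (hc : c ≠ 0) :
    v.adicValuation (algebraMap K F c) = 1 := by
  have h1 := v.adicValuation_algebraMap_le_one c
  have h2 := v.adicValuation_algebraMap_le_one c⁻¹
  have h3 : v.adicValuation (algebraMap K F c) * v.adicValuation (algebraMap K F c⁻¹) = 1 := by
    rw [← map_mul, ← map_mul, mul_inv_cancel₀ hc, map_one, map_one]
  refine le_antisymm h1 ?_
  by_contra hlt
  rw [not_le] at hlt
  have : v.adicValuation (algebraMap K F c) * v.adicValuation (algebraMap K F c⁻¹) < 1 :=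
    mul_lt_one_of_lt_of_le hlt h2
  exact absurd h3 (ne_of_lt this)

theorem ord_algebraMap (v : Place K F) (c : K) : v.ord (algebraMap K F c) = 0 := by
  rcases eq_or_ne c 0 with rfl | hc
  · simp
  · simp [Place.ord, adicValuation_algebraMap_eq_one v hc]

theorem one_mem_rrSpace {D : Divisor K F} (hD : 0 ≤ D) : (1 : F) ∈ riemannRochSpace D := by
  rw [mem_riemannRochSpace_iff]
  intro v
  right
  rw [Place.ord_one]
  have := Finsupp.le_def.mp hD v
  rw [Finsupp.zero_apply] at this
  omega

/-- if `ℓ(D) = 1` and `D ≥ 0` then `L(D)` consists of constants. -/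
theorem exists_algebraMap_of_finrank_one {D : Divisor K F} (hD : 0 ≤ D)
    (h1 : Module.finrank K (riemannRochSpace D) = 1) {f : F} (hf : f ∈ riemannRochSpace D) :
    ∃ c : K, f = algebraMap K F c := by
  have hone : (⟨1, one_mem_rrSpace hD⟩ : riemannRochSpace D) ≠ 0 := by
    intro h0
    exact one_ne_zero (congrArg Subtype.val h0)
  obtain ⟨c, hc⟩ := (finrank_eq_one_iff_of_nonzero' _ hone).mp h1 ⟨f, hf⟩
  refine ⟨c, ?_⟩
  have := congrArg Subtype.val hc
  simp only [Submodule.coe_smul] at this
  rw [← this, Algebra.smul_def, mul_one]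

/-- **(b3)** uniqueness of the effective divisor in its class when `ℓ(D) = 1`. -/
theorem eq_of_effective_of_finrank_one {D E : Divisor K F} (hD : 0 ≤ D)
    (h1 : Module.finrank K (riemannRochSpace D) = 1) (hE : 0 ≤ E)
    (hprin : Divisor.IsPrincipal (E - D)) : E = D := by
  obtain ⟨f, hf0, hf⟩ := hprin
  have hmem : f ∈ riemannRochSpace D := by
    rw [mem_riemannRochSpace_iff]
    intro v
    right
    rw [← hf v, Finsupp.sub_apply]
    have := Finsupp.le_def.mp hE v
    rw [Finsupp.zero_apply] at this
    omega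
  obtain ⟨c, rfl⟩ := exists_algebraMap_of_finrank_one hD h1 hmem
  ext v
  have := hf v
  rw [ord_algebraMap, Finsupp.sub_apply] at this
  omega

/-- same with membership in the subgroup of principal divisors. -/
theorem eq_of_effective_of_finrank_one' {D E : Divisor K F} (hD : 0 ≤ D)
    (h1 : Module.finrank K (riemannRochSpace D) = 1) (hE : 0 ≤ E)
    (hprin : E - D ∈ Divisor.principal (K := K) (F := F)) : E = D :=
  eq_of_effective_of_finrank_one hD h1 hE hprin

end

section Lift

variable {K₁ F₁ K₂ F₂ : Type*} [Field K₁] [Field F₁] [Algebra K₁ F₁]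
  [Field K₂] [Field F₂] [Algebra K₂ F₂]

/-- **(b4)** If `E ≥ 0` and `r_* E = P̄₁ + ⋯ + P̄_g` with distinct `P̄ᵢ`, then
`E = Q₁ + ⋯ + Q_g` with `r(Qᵢ) = P̄ᵢ`. -/
theorem exists_lift_of_mapDomain_eq {g : ℕ} (r : Place K₁ F₁ → Place K₂ F₂)
    {E : Divisor K₁ F₁} (hE : 0 ≤ E) (Pbar : Fin g → Place K₂ F₂)
    (hinj : Function.Injective Pbar)
    (hmap : Finsupp.mapDomain r E = ∑ i, Finsupp.single (Pbar i) (1 : ℤ)) :
    ∃ Q : Fin g → Place K₁ F₁, (∀ i, r (Q i) = Pbar i) ∧
      E = ∑ i, Finsupp.single (Q i) (1 : ℤ) := by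
  classical
  have hEnn : ∀ v, 0 ≤ E v := fun v => by
    have := Finsupp.le_def.mp hE v
    rwa [Finsupp.zero_apply] at this
  -- value of the right-hand side
  have hrhs : ∀ w : Place K₂ F₂, (∑ i, Finsupp.single (Pbar i) (1 : ℤ)) w =
      if w ∈ Set.range Pbar then 1 else 0 := by
    intro w
    rw [Finsupp.finsetSum_apply]
    split_ifs with hw
    · obtain ⟨i, rfl⟩ := hw
      rw [Finset.sum_eq_single i]
      · simp
      · intro j _ hji
        rw [Finsupp.single_apply, if_neg]
        exact fun h => hji (hinj h)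
      · intro hi
        exact absurd (Finset.mem_univ i) hi
    · refine Finset.sum_eq_zero fun i _ => ?_
      rw [Finsupp.single_apply, if_neg]
      exact fun h => hw ⟨i, h⟩
  -- value of the left-hand side
  have hlhs : ∀ w : Place K₂ F₂, Finsupp.mapDomain r E w =
      ∑ v ∈ E.support.filter (fun v => r v = w), E v := by
    intro w
    rw [Finsupp.mapDomain, Finsupp.sum_apply, Finsupp.sum, Finset.sum_filter]
    refine Finset.sum_congr rfl fun v _ => ?_
    rw [Finsupp.single_apply]
  have hkey : ∀ w : Place K₂ F₂, ∑ v ∈ E.support.filter (fun v => r v = w), E v =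
      if w ∈ Set.range Pbar then 1 else 0 := fun w => by rw [← hlhs, hmap, hrhs]
  -- every support point has multiplicity one and lies over some `Pbar i`
  have hsupp : ∀ v ∈ E.support, E v = 1 ∧ r v ∈ Set.range Pbar ∧
      ∀ v' ∈ E.support, r v' = r v → v' = v := by
    intro v hv
    have hv1 : 1 ≤ E v := by
      have h0 := hEnn v
      have hne : E v ≠ 0 := Finsupp.mem_support_iff.mp hv
      omega
    have hk := hkey (r v)
    have hvmem : v ∈ E.support.filter (fun v' => r v' = r v) :=
      Finset.mem_filter.mpr ⟨hv, rfl⟩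
    have hle : E v ≤ ∑ v' ∈ E.support.filter (fun v' => r v' = r v), E v' :=
      Finset.single_le_sum (fun v' _ => hEnn v') hvmem
    have hrange : r v ∈ Set.range Pbar := by
      by_contra hnot
      rw [if_neg hnot] at hk
      omega
    rw [if_pos hrange] at hk
    refine ⟨by omega, hrange, fun v' hv' hrv' => ?_⟩
    by_contra hne
    have hv'mem : v' ∈ E.support.filter (fun v'' => r v'' = r v) :=
      Finset.mem_filter.mpr ⟨hv', hrv'⟩
    have hv'1 : 1 ≤ E v' := by
      have h0 := hEnn v'
      have hne' : E v' ≠ 0 := Finsupp.mem_support_iff.mp hv'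
      omega
    have h2 : E v + E v' ≤ ∑ v'' ∈ E.support.filter (fun v'' => r v'' = r v), E v'' := by
      have hsub : ({v, v'} : Finset (Place K₁ F₁)) ⊆
          E.support.filter (fun v'' => r v'' = r v) := by
        intro x hx
        rcases Finset.mem_insert.mp hx with rfl | hx
        · exact hvmem
        · rw [Finset.mem_singleton] at hx
          subst hx
          exact hv'mem
      have := Finset.sum_le_sum_of_subset_of_nonneg hsub
        (f := fun x => E x) (fun x _ _ => hEnn x)
      rwa [Finset.sum_pair (Ne.symm hne)] at this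
    omega
  -- each `Pbar i` has a support point above it
  have hex : ∀ i, ∃ v ∈ E.support, r v = Pbar i := by
    intro i
    have hk := hkey (Pbar i)
    rw [if_pos ⟨i, rfl⟩] at hk
    by_contra hnone
    push Not at hnone
    have : E.support.filter (fun v => r v = Pbar i) = ∅ := by
      rw [Finset.filter_eq_empty_iff]
      exact fun v hv => hnone v hv
    rw [this, Finset.sum_empty] at hk
    omega
  choose Q hQsupp hQr using hex
  refine ⟨Q, hQr, ?_⟩
  have hQinj : Function.Injective Q := fun i j hij => hinj (by rw [← hQr i, ← hQr j, hij])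
  ext v
  rw [Finsupp.finsetSum_apply]
  by_cases hv : v ∈ E.support
  · obtain ⟨hv1, ⟨i, hi⟩, huniq⟩ := hsupp v hv
    have hQi : Q i = v := huniq (Q i) (hQsupp i) (by rw [hQr i, hi])
    rw [hv1, Finset.sum_eq_single i]
    · rw [hQi, Finsupp.single_eq_same]
    · intro j _ hji
      rw [Finsupp.single_apply, if_neg]
      intro hjv
      exact hji (hQinj (hjv.trans hQi.symm))
    · intro hi'
      exact absurd (Finset.mem_univ i) hi'
  · rw [Finsupp.notMem_support_iff.mp hv]
    symm
    refine Finset.sum_eq_zero fun i _ => ?_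
    rw [Finsupp.single_apply, if_neg]
    rintro rfl
    exact hv (hQsupp i)

end Lift

end Fermat.Agent.H25.ESD
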